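import Mathlib.Analysis.Matrix.Spectrum
import Mathlib.LinearAlgebra.Matrix.SchurComplement
import Mathlib.MeasureTheory.Integral.Pi
import Mathlib.Probability.Distributions.Gaussian.Multivariate

/-!
# The Laplace transform of the squares of a Gaussian vector

For `X = A g` with `g` standard and `C = A Aᵀ`, the expectation of `exp (-∑ lᵢ Xᵢ²)` is
`det (1 + 2 L C) ^ (-1/2)`.
-/

set_option autoImplicit false

noncomputable section

namespace FA.GaussianCorrelation

open MeasureTheory ProbabilityTheory Real Finset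
open scoped Matrix

variable {ι κ : Type*} [Fintype ι] [Fintype κ]

/-- The standard Gaussian measure on `κ → ℝ`. -/
def gaussPi (κ : Type*) [Fintype κ] : Measure (κ → ℝ) := Measure.pi fun _ => gaussianReal 0 1

instance : IsProbabilityMeasure (gaussPi κ) := by unfold gaussPi; infer_instance

theorem integral_exp_neg_mul_sq {d : ℝ} (hd : 0 ≤ d) :
    ∫ t, exp (-(d * t ^ 2)) ∂gaussianReal 0 1 = (√(1 + 2 * d))⁻¹ := by
  rw [integral_gaussianReal_eq_integral_smul one_ne_zero]
  simp only [gaussianPDFReal, NNReal.coe_one, mul_one, sub_zero, smul_eq_mul]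
  have e : ∀ t : ℝ, (√(2 * π))⁻¹ * exp (-t ^ 2 / 2) * exp (-(d * t ^ 2)) =
      (√(2 * π))⁻¹ * exp (-(1 / 2 + d) * t ^ 2) := fun t => by
    rw [mul_assoc, ← exp_add]
    ring_nf
  simp only [e, integral_const_mul, integral_gaussian]
  rw [← sqrt_inv, ← sqrt_mul (by positivity), ← sqrt_inv]
  congr 1
  field_simp

variable [DecidableEq κ]

/-- The Gaussian measure is invariant under the orthogonal matrix of an eigenbasis. -/
theorem map_eigenvectorUnitary {S : Matrix κ κ ℝ} (hS : S.IsHermitian) :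
    (gaussPi κ).map (fun x => (hS.eigenvectorUnitary : Matrix κ κ ℝ) *ᵥ x) = gaussPi κ := by
  have e : (fun x : κ → ℝ => (hS.eigenvectorUnitary : Matrix κ κ ℝ) *ᵥ x) =
      WithLp.ofLp ∘ fun x => ∑ i, x i • hS.eigenvectorBasis i := by
    funext x j
    simp [Matrix.mulVec, dotProduct, mul_comm]
  rw [e, ← Measure.map_map (by fun_prop) (by fun_prop), gaussPi,
    ← stdGaussian_eq_map_pi_orthonormalBasis, ← map_pi_eq_stdGaussian,
    Measure.map_map (by fun_prop) (by fun_prop)]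
  exact Measure.map_id

/-- **The Gaussian integral of a quadratic form.** -/
theorem laplace_quad {S : Matrix κ κ ℝ} (hS : S.PosSemidef) :
    ∫ g, exp (-(g ⬝ᵥ S *ᵥ g)) ∂gaussPi κ = (√((1 + (2 : ℝ) • S).det))⁻¹ := by
  obtain ⟨U, hU⟩ : ∃ U : Matrix κ κ ℝ, U = hS.isHermitian.eigenvectorUnitary := ⟨_, rfl⟩
  obtain ⟨w, hw⟩ : ∃ w : κ → ℝ, w = hS.isHermitian.eigenvalues := ⟨_, rfl⟩
  have hUU : Uᵀ * U = 1 := by
    rw [hU]
    exact Unitary.coe_star_mul_self hS.isHermitian.eigenvectorUnitary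
  have hD : Uᵀ * S * U = Matrix.diagonal w := by
    have h := hS.isHermitian.conjStarAlgAut_star_eigenvectorUnitary
    rw [Unitary.conjStarAlgAut_apply] at h
    simpa [hU, hw, Matrix.star_eq_conjTranspose] using h
  have hw0 : ∀ i, 0 ≤ w i := fun i => hw ▸ hS.eigenvalues_nonneg i
  have hq : ∀ x, (U *ᵥ x) ⬝ᵥ (S *ᵥ (U *ᵥ x)) = ∑ i, w i * x i ^ 2 := fun x => by
    have h1 : U *ᵥ x = x ᵥ* Uᵀ := by rw [Matrix.vecMul_transpose]
    conv_lhs => rw [Matrix.mulVec_mulVec, h1, ← Matrix.dotProduct_mulVec,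
      Matrix.mulVec_mulVec, ← Matrix.mul_assoc, hD]
    simp only [dotProduct, Matrix.mulVec_diagonal]
    exact sum_congr rfl fun i _ => by ring
  have hdet : (1 + (2 : ℝ) • S).det = ∏ i, (1 + 2 * w i) := by
    have h : Uᵀ * (1 + (2 : ℝ) • S) * U = Matrix.diagonal fun i => 1 + 2 * w i := by
      rw [Matrix.mul_add, Matrix.add_mul, Matrix.mul_one, hUU, Matrix.mul_smul, Matrix.smul_mul, hD,
        ← Matrix.diagonal_one, ← Matrix.diagonal_smul, Matrix.diagonal_add]
      rfl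
    have h2 := congrArg Matrix.det h
    rw [Matrix.det_mul, Matrix.det_mul, Matrix.det_diagonal, mul_right_comm, ← Matrix.det_mul, hUU,
      Matrix.det_one, one_mul] at h2
    exact h2
  have hm := map_eigenvectorUnitary hS.isHermitian
  rw [← hU] at hm
  conv_lhs => rw [← hm]
  rw [integral_map (by fun_prop) (by fun_prop)]
  simp only [hq, ← sum_neg_distrib, exp_sum]
  rw [gaussPi, integral_fintype_prod_eq_prod (fun i t => exp (-(w i * t ^ 2))), hdet,
    sqrt_eq_rpow, ← finsetProd_rpow _ _ (fun i _ => by linarith [hw0 i]), ← prod_inv_distrib]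
  exact prod_congr rfl fun i _ => by rw [integral_exp_neg_mul_sq (hw0 i), sqrt_eq_rpow]

variable [DecidableEq ι]

/-- **The Laplace transform of the squares.** -/
theorem laplace_squares (A : Matrix ι κ ℝ) {l : ι → ℝ} (hl : ∀ i, 0 ≤ l i) :
    ∫ g, exp (-∑ i, l i * (A *ᵥ g) i ^ 2) ∂gaussPi κ =
      (√((1 + Matrix.diagonal (2 • l) * (A * Aᵀ)).det))⁻¹ := by
  have hS : (Aᵀ * Matrix.diagonal l * A).PosSemidef := by
    simpa using (Matrix.PosSemidef.diagonal hl).conjTranspose_mul_mul_same A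
  have hq : ∀ g, g ⬝ᵥ ((Aᵀ * Matrix.diagonal l * A) *ᵥ g) = ∑ i, l i * (A *ᵥ g) i ^ 2 := fun g => by
    rw [← Matrix.mulVec_mulVec, ← Matrix.mulVec_mulVec, Matrix.dotProduct_mulVec,
      Matrix.vecMul_transpose]
    simp only [dotProduct, Matrix.mulVec_diagonal]
    exact sum_congr rfl fun i _ => by ring
  have h := laplace_quad hS
  simp only [hq] at h
  rw [h]
  congr 2
  rw [show (2 : ℝ) • (Aᵀ * Matrix.diagonal l * A) = Aᵀ * (Matrix.diagonal (2 • l) * A) by
      rw [Matrix.mul_assoc, ← Matrix.mul_smul, ← Matrix.smul_mul, ← Matrix.diagonal_smul]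
      congr 3; funext i; simp,
    Matrix.det_one_add_mul_comm, Matrix.mul_assoc]

/-- Several independent copies. -/
theorem laplace_squares_pow (k : ℕ) (A : Matrix ι κ ℝ) {l : ι → ℝ} (hl : ∀ i, 0 ≤ l i) :
    ∫ G, exp (-∑ i, l i * ∑ j, (A *ᵥ G j) i ^ 2) ∂(Measure.pi fun _ : Fin k => gaussPi κ) =
      (√((1 + Matrix.diagonal (2 • l) * (A * Aᵀ)).det))⁻¹ ^ k := by
  have e : ∀ G : Fin k → κ → ℝ, exp (-∑ i, l i * ∑ j, (A *ᵥ G j) i ^ 2) =
      ∏ j, exp (-∑ i, l i * (A *ᵥ G j) i ^ 2) := fun G => by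
    rw [← exp_sum, sum_neg_distrib, sum_comm]
    simp only [mul_sum]
  simp only [e]
  rw [integral_fintype_prod_eq_pow fun g => exp (-∑ i, l i * (A *ᵥ g) i ^ 2), laplace_squares A hl,
    Fintype.card_fin]

end FA.GaussianCorrelation

end
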