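import Fermat.Agent.GaussianCorrelation.Strips
import Fermat.Agent.Dvoretzky.Concentration
import Mathlib.Analysis.Convex.Measure
import Mathlib.Analysis.LocallyConvex.Separation

/-!
# The Gaussian correlation inequality

A closed symmetric convex set is a countable intersection of strips, and the frontier of a convex
set is null, so the correlation inequality for strips gives it for all symmetric convex sets.
-/

set_option autoImplicit false

noncomputable section

namespace FA.GaussianCorrelation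

open MeasureTheory ProbabilityTheory Finset Module
open scoped Matrix Topology RealInnerProductSpace

variable {n : ℕ}

theorem dual_eq_dot (f : StrongDual ℝ (Fin n → ℝ)) (x : Fin n → ℝ) :
    f x = (fun i => f (Pi.single i 1)) ⬝ᵥ x := by
  conv_lhs => rw [pi_eq_sum_univ' x]
  simp [map_sum, dotProduct, mul_comm]

/-- **A closed symmetric convex set is a countable intersection of strips.** -/
theorem exists_strips {K : Set (Fin n → ℝ)} (hc : IsClosed K) (hconv : Convex ℝ K)
    (h0 : 0 ∈ K) (hs : ∀ x ∈ K, -x ∈ K) :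
    ∃ a : ℕ → Fin n → ℝ, K = {g | ∀ j, |a j ⬝ᵥ g| ≤ 1} := by
  obtain ⟨A, hA⟩ : ∃ A : Set (Fin n → ℝ), A = {a | ∀ y ∈ K, |a ⬝ᵥ y| ≤ 1} := ⟨_, rfl⟩
  have hcover : Kᶜ ⊆ ⋃ a : A, {x | 1 < |(a : Fin n → ℝ) ⬝ᵥ x|} := fun x hx => by
    obtain ⟨f, u, hfK, hfx⟩ := geometric_hahn_banach_closed_point hconv hc hx
    have hu : 0 < u := by simpa using hfK 0 h0
    have he : ∀ y, ((fun i => u⁻¹ * f (Pi.single i 1)) ⬝ᵥ y) = u⁻¹ * f y := fun y => by
      rw [dual_eq_dot f y, ← smul_eq_mul, ← smul_dotProduct]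
      rfl
    refine Set.mem_iUnion.2 ⟨⟨fun i => u⁻¹ * f (Pi.single i 1), ?_⟩, ?_⟩
    · rw [hA]
      intro y hy
      have h1 := hfK y hy
      have h2 := hfK (-y) (hs y hy)
      rw [map_neg] at h2
      rw [he, inv_mul_eq_div, abs_le, le_div_iff₀ hu, div_le_iff₀ hu]
      constructor <;> linarith
    · show 1 < |(fun i => u⁻¹ * f (Pi.single i 1)) ⬝ᵥ x|
      rw [he]
      refine lt_of_lt_of_le ?_ (le_abs_self _)
      rw [inv_mul_eq_div, one_lt_div hu]
      exact hfx
  obtain ⟨T, hT, hTU⟩ := TopologicalSpace.isOpen_iUnion_countable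
    (fun a : A => {x : Fin n → ℝ | 1 < |(a : Fin n → ℝ) ⬝ᵥ x|}) fun a =>
      isOpen_lt continuous_const (by unfold dotProduct; fun_prop)
  have h0A : (0 : Fin n → ℝ) ∈ A := by
    rw [hA]
    intro y _
    simp
  obtain ⟨e, he⟩ := (hT.insert ⟨0, h0A⟩).exists_eq_range ⟨⟨0, h0A⟩, Set.mem_insert _ _⟩
  refine ⟨fun j => e j, Set.Subset.antisymm (fun x hx j => ?_) fun x hx => ?_⟩
  · exact (Set.ext_iff.1 hA _).1 (e j).2 x hx
  · by_contra hxK
    have h := hcover hxK
    rw [← hTU] at h
    simp only [Set.mem_iUnion, Set.mem_ofPred_eq] at h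
    obtain ⟨a, haT, hax⟩ := h
    obtain ⟨j, hj⟩ : a ∈ Set.range e := he ▸ Set.mem_insert_of_mem _ haT
    exact absurd (hx j) (not_le.2 (by simpa only [hj] using hax))

theorem closure_ae_eq {K : Set (Fin n → ℝ)} (hK : Convex ℝ K) :
    closure K =ᵐ[gaussPi (Fin n)] K := by
  have h : gaussPi (Fin n) ≪ volume := by
    have e : gaussPi (Fin n) = Dvoretzky.gauss n := rfl
    rw [e, Dvoretzky.gauss_eq_withDensity]
    exact withDensity_absolutelyContinuous _ _
  refine ae_eq_set.2 ⟨?_, ?_⟩
  · exact measure_mono_null (Set.sdiff_subset_sdiff_right interior_subset)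
      (h (hK.addHaar_frontier volume))
  · simp [Set.sdiff_eq_empty.2 subset_closure]

theorem zero_mem_of_symmetric {E : Type*} [AddCommGroup E] [Module ℝ E] {K : Set E}
    (hK : Convex ℝ K) (hs : ∀ x ∈ K, -x ∈ K) (h : K.Nonempty) : (0 : E) ∈ K := by
  obtain ⟨x, hx⟩ := h
  have := hK hx (hs x hx) (show (0 : ℝ) ≤ 1 / 2 by norm_num) (show (0 : ℝ) ≤ 1 / 2 by norm_num)
    (by norm_num)
  simpa using this

/-- **The Gaussian correlation inequality** on `ℝ^n`. -/
theorem gaussPi_correlation {K L : Set (Fin n → ℝ)} (hK : Convex ℝ K) (hL : Convex ℝ L)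
    (hKs : ∀ x ∈ K, -x ∈ K) (hLs : ∀ x ∈ L, -x ∈ L) :
    gaussPi (Fin n) K * gaussPi (Fin n) L ≤ gaussPi (Fin n) (K ∩ L) := by
  rcases K.eq_empty_or_nonempty with rfl | hKn
  · simp
  rcases L.eq_empty_or_nonempty with rfl | hLn
  · simp
  have hc : ∀ M : Set (Fin n → ℝ), (∀ x ∈ M, -x ∈ M) → ∀ x ∈ closure M, -x ∈ closure M :=
    fun M hM x hx => map_mem_closure continuous_neg hx hM
  obtain ⟨a, ha⟩ := exists_strips isClosed_closure hK.closure
    (subset_closure (zero_mem_of_symmetric hK hKs hKn)) (hc K hKs)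
  obtain ⟨b, hb⟩ := exists_strips isClosed_closure hL.closure
    (subset_closure (zero_mem_of_symmetric hL hLs hLn)) (hc L hLs)
  have h := countable_strip_correlation a b
  rwa [← ha, ← hb, measure_congr (closure_ae_eq hK), measure_congr (closure_ae_eq hL),
    measure_congr ((closure_ae_eq hK).inter (closure_ae_eq hL))] at h

variable {E : Type*} [NormedAddCommGroup E] [InnerProductSpace ℝ E] [FiniteDimensional ℝ E]
  [MeasurableSpace E] [BorelSpace E]

/-- **The Gaussian correlation inequality.** -/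
theorem stdGaussian_correlation {K L : Set E} (hK : Convex ℝ K) (hL : Convex ℝ L)
    (hKs : ∀ x ∈ K, -x ∈ K) (hLs : ∀ x ∈ L, -x ∈ L) :
    stdGaussian E K * stdGaussian E L ≤ stdGaussian E (K ∩ L) := by
  set φ := (stdOrthonormalBasis ℝ E).toBasis.equivFun.symm.toContinuousLinearEquiv
  have e : stdGaussian E = (gaussPi (Fin (finrank ℝ E))).map φ := by
    rw [stdGaussian, gaussPi]
    refine congrArg (fun f => Measure.map f _) (funext fun x => ?_)
    show _ = (stdOrthonormalBasis ℝ E).toBasis.equivFun.symm x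
    rw [Basis.equivFun_symm_apply]
    simp only [OrthonormalBasis.coe_toBasis]
  have hφ : MeasurableEmbedding φ := φ.toHomeomorph.measurableEmbedding
  rw [e, hφ.map_apply, hφ.map_apply, hφ.map_apply, Set.preimage_inter]
  exact gaussPi_correlation (hK.linear_preimage φ.toLinearEquiv.toLinearMap)
    (hL.linear_preimage φ.toLinearEquiv.toLinearMap)
    (fun x hx => by simpa using hKs _ hx) fun x hx => by simpa using hLs _ hx

theorem map_stdGaussian_correlation {F : Type*} [NormedAddCommGroup F] [NormedSpace ℝ F]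
    [MeasurableSpace F] [BorelSpace F] (T : E →L[ℝ] F) {K L : Set F} (hK : Convex ℝ K)
    (hL : Convex ℝ L) (hKs : ∀ x ∈ K, -x ∈ K) (hLs : ∀ x ∈ L, -x ∈ L) (hKm : MeasurableSet K)
    (hLm : MeasurableSet L) :
    (stdGaussian E).map T K * (stdGaussian E).map T L ≤ (stdGaussian E).map T (K ∩ L) := by
  have hT : Measurable T := T.continuous.measurable
  rw [Measure.map_apply hT hKm, Measure.map_apply hT hLm, Measure.map_apply hT (hKm.inter hLm),
    Set.preimage_inter]
  exact stdGaussian_correlation (hK.linear_preimage T.toLinearMap)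
    (hL.linear_preimage T.toLinearMap)
    (fun x hx => by simpa using hKs _ hx) fun x hx => by simpa using hLs _ hx

open scoped MatrixOrder in
/-- Every centred Gaussian measure is a linear image of the standard one. -/
theorem exists_map_stdGaussian (μ : Measure E) [IsGaussian μ] (hμ : μ[id] = 0) :
    ∃ T : EuclideanSpace ℝ (Fin (finrank ℝ E)) →L[ℝ] E,
      μ = (stdGaussian (EuclideanSpace ℝ (Fin (finrank ℝ E)))).map T := by
  obtain ⟨b⟩ : Nonempty (OrthonormalBasis (Fin (finrank ℝ E)) ℝ E) := ⟨stdOrthonormalBasis ℝ E⟩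
  obtain ⟨C, hC⟩ : ∃ C : Matrix (Fin (finrank ℝ E)) (Fin (finrank ℝ E)) ℝ,
      ∀ i j, C i j = covarianceBilin μ (b i) (b j) :=
    ⟨Matrix.of fun i j => covarianceBilin μ (b i) (b j), fun _ _ => rfl⟩
  have hCp : C.PosSemidef := by
    refine Matrix.PosSemidef.of_dotProduct_mulVec_nonneg (Matrix.IsHermitian.ext fun i j => by
      rw [star_trivial, hC, hC, covarianceBilin_comm]) fun x => ?_
    have h := covarianceBilin_self_nonneg (μ := μ) (∑ i, x i • b i)
    refine le_of_le_of_eq h ?_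
    simp [hC, map_sum, dotProduct, Matrix.mulVec, mul_sum]
    rw [sum_comm]
    exact sum_congr rfl fun i _ => sum_congr rfl fun j _ => by ring
  obtain ⟨B, hB⟩ := CStarAlgebra.nonneg_iff_eq_star_mul_self.1 hCp.nonneg
  obtain ⟨R, hR⟩ : ∃ R : E →L[ℝ] EuclideanSpace ℝ (Fin (finrank ℝ E)),
      ∀ i, R (b i) = WithLp.toLp 2 (Bᵀ i) :=
    ⟨(b.toBasis.constr ℝ fun i => WithLp.toLp 2 (Bᵀ i)).toContinuousLinearMap, fun i => by
      rw [LinearMap.coe_toContinuousLinearMap', ← b.coe_toBasis]
      exact b.toBasis.constr_basis ℝ _ i⟩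
  refine ⟨R.adjoint, IsGaussian.ext ?_ ?_⟩
  · rw [hμ]
    simp only [id]
    rw [R.adjoint.integral_id_map IsGaussian.integrable_id]
    simp
  · refine ContinuousLinearMap.coe_injective (b.toBasis.ext fun i =>
      ContinuousLinearMap.coe_injective (b.toBasis.ext fun j => ?_))
    simp only [ContinuousLinearMap.coe_coe, b.coe_toBasis,
      covarianceBilin_map IsGaussian.memLp_two_id, covarianceBilin_stdGaussian,
      ContinuousLinearMap.adjoint_adjoint, hR]
    show _ = ⟪WithLp.toLp 2 (Bᵀ i), WithLp.toLp 2 (Bᵀ j)⟫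
    rw [← hC, hB]
    simp [Matrix.mul_apply, Matrix.star_eq_conjTranspose, PiLp.inner_apply, mul_comm]

/-- **The Gaussian correlation inequality** for a centred Gaussian measure, possibly degenerate. -/
theorem gaussian_correlation (μ : Measure E) [IsGaussian μ] (hμ : μ[id] = 0) {K L : Set E}
    (hK : Convex ℝ K) (hL : Convex ℝ L) (hKs : ∀ x ∈ K, -x ∈ K) (hLs : ∀ x ∈ L, -x ∈ L)
    (hKm : MeasurableSet K) (hLm : MeasurableSet L) : μ K * μ L ≤ μ (K ∩ L) := by
  obtain ⟨T, rfl⟩ := exists_map_stdGaussian μ hμ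
  exact map_stdGaussian_correlation T hK hL hKs hLs hKm hLm

/-- The inequality for finitely many sets. -/
theorem prod_le_measure_biInter (μ : Measure E) [IsGaussian μ] (hμ : μ[id] = 0) {ι : Type*}
    (S : Finset ι) {K : ι → Set E} (hK : ∀ i ∈ S, Convex ℝ (K i))
    (hKs : ∀ i ∈ S, ∀ x ∈ K i, -x ∈ K i) (hKm : ∀ i ∈ S, MeasurableSet (K i)) :
    ∏ i ∈ S, μ (K i) ≤ μ (⋂ i ∈ S, K i) := by
  classical
  induction S using Finset.induction_on with
  | empty => simp
  | insert a S ha ih =>
    simp only [mem_insert, forall_eq_or_imp] at hK hKs hKm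
    rw [prod_insert ha, set_biInter_insert]
    refine le_trans (by gcongr; exact ih hK.2 hKs.2 hKm.2) (gaussian_correlation μ hμ hK.1
      (convex_iInter₂ hK.2) hKs.1 (fun x hx => ?_) hKm.1
      (MeasurableSet.biInter S.countable_toSet hKm.2))
    simp only [Set.mem_iInter] at hx ⊢
    exact fun i hi => hKs.2 i hi x (hx i hi)

/-- **The inequality of Khatri and Šidák.** -/
theorem khatri_sidak (μ : Measure E) [IsGaussian μ] (hμ : μ[id] = 0) {ι : Type*} [Fintype ι]
    (a : ι → E) (t : ι → ℝ) :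
    ∏ i, μ {x | |⟪a i, x⟫| ≤ t i} ≤ μ {x | ∀ i, |⟪a i, x⟫| ≤ t i} := by
  have h := prod_le_measure_biInter μ hμ univ (K := fun i => {x | |⟪a i, x⟫| ≤ t i})
    (fun i _ => by
      have : Convex ℝ (Set.Icc (-t i) (t i)) := convex_Icc _ _
      simpa [Set.preimage, abs_le] using this.linear_preimage (innerSL ℝ (a i)).toLinearMap)
    (fun i _ x hx => by simpa [inner_neg_right] using hx)
    fun i _ => measurableSet_le (by fun_prop) measurable_const
  refine h.trans_eq (congrArg μ ?_)
  ext x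
  simp

end FA.GaussianCorrelation

end
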