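import Fermat.Agent.GaussianCorrelation.Laplace
import Mathlib.Analysis.Calculus.Deriv.Slope
import Mathlib.Analysis.Convex.SpecificFunctions.Basic
import Mathlib.LinearAlgebra.Matrix.Charpoly.Coeff
import Mathlib.Topology.Instances.Matrix

/-!
# The principal minors of the interpolated covariance

`det (1 + D C)` is a sum over the principal minors of `C`. If the entries of `C` between two groups
of indices are multiplied by `τ`, every principal minor decreases for `τ` in `[0, 1]`: a Gaussian
integral which is convex and even in `τ` increases there.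
-/

set_option autoImplicit false

noncomputable section

namespace FA.GaussianCorrelation

open MeasureTheory Real Finset
open scoped Matrix Topology

variable {ι : Type*} [Fintype ι] [DecidableEq ι]

theorem det_one_add_diagonal_mul (d : ι → ℝ) (C : Matrix ι ι ℝ) :
    (1 + Matrix.diagonal d * C).det =
      ∑ J : Finset ι, (∏ i ∈ J, d i) * (C.submatrix (Subtype.val : J → ι) Subtype.val).det := by
  rw [add_comm]
  let D := (Matrix.detRowAlternating : (ι → ℝ) [⋀^ι]→ₗ[ℝ] ℝ)
  change D ((fun i => (Matrix.diagonal d * C) i) + fun i => (1 : Matrix ι ι ℝ) i) = _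
  rw [D.map_add_univ]
  refine sum_congr rfl fun J _ => ?_
  rw [← Matrix.det_piecewise_one_eq_submatrix_det C J]
  have e : J.piecewise (fun i => (Matrix.diagonal d * C) i) (fun i => (1 : Matrix ι ι ℝ) i) =
      fun i => (if i ∈ J then d i else 1) • J.piecewise C.row (1 : Matrix ι ι ℝ).row i := by
    funext i j
    by_cases h : i ∈ J <;> simp [Finset.piecewise, h, Matrix.diagonal_mul, Matrix.row]
  rw [e, D.map_smul_univ, prod_ite_mem, univ_inter, smul_eq_mul]
  rfl

/-- The entries between the two groups multiplied by `τ`. -/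
def twist (s : ι → Bool) (τ : ℝ) (C : Matrix ι ι ℝ) : Matrix ι ι ℝ :=
  Matrix.of fun i j => if s i = s j then C i j else τ * C i j

/-- The signs of the two groups. -/
def signs (s : ι → Bool) (i : ι) : ℝ := if s i then 1 else -1

omit [Fintype ι] [DecidableEq ι] in
theorem signs_mul_self (s : ι → Bool) (i : ι) : signs s i * signs s i = 1 := by
  cases h : s i <;> simp [signs, h]

omit [Fintype ι] [DecidableEq ι] in
theorem twist_one (s : ι → Bool) (C : Matrix ι ι ℝ) : twist s 1 C = C := by
  ext i j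
  simp [twist]

theorem twist_neg (s : ι → Bool) (τ : ℝ) (C : Matrix ι ι ℝ) :
    twist s (-τ) C = Matrix.diagonal (signs s) * twist s τ C * Matrix.diagonal (signs s) := by
  ext i j
  cases hi : s i <;> cases hj : s j <;> simp [twist, signs, hi, hj]

omit [Fintype ι] [DecidableEq ι] in
theorem twist_affine (s : ι → Bool) {a b u v : ℝ} (hab : a + b = 1) (C : Matrix ι ι ℝ) :
    twist s (a * u + b * v) C = a • twist s u C + b • twist s v C := by
  ext i j
  by_cases h : s i = s j
  · simp only [twist, Matrix.add_apply, Matrix.smul_apply, Matrix.of_apply, if_pos h, smul_eq_mul]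
    linear_combination -(C i j) * hab
  · simp only [twist, Matrix.add_apply, Matrix.smul_apply, Matrix.of_apply, if_neg h, smul_eq_mul]
    ring

theorem posSemidef_twist {C : Matrix ι ι ℝ} (hC : C.PosSemidef) (s : ι → Bool) {τ : ℝ}
    (h1 : -1 ≤ τ) (h2 : τ ≤ 1) : (twist s τ C).PosSemidef := by
  have hneg : (twist s (-1) C).PosSemidef := by
    rw [twist_neg, twist_one]
    simpa using hC.mul_mul_conjTranspose_same (Matrix.diagonal (signs s))
  rw [show τ = (1 + τ) / 2 * 1 + (1 - τ) / 2 * (-1) by ring, twist_affine s (by ring), twist_one]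
  exact (hC.smul (by linarith)).add (hneg.smul (by linarith))

theorem det_one_add_smul_twist_neg (s : ι → Bool) (τ c : ℝ) (C : Matrix ι ι ℝ) :
    (1 + c • twist s (-τ) C).det = (1 + c • twist s τ C).det := by
  have hσ : Matrix.diagonal (signs s) * Matrix.diagonal (signs s) = 1 := by
    rw [Matrix.diagonal_mul_diagonal]
    simp [signs_mul_self]
  have e : 1 + c • twist s (-τ) C =
      Matrix.diagonal (signs s) * (1 + c • twist s τ C) * Matrix.diagonal (signs s) := by
    rw [twist_neg, Matrix.mul_add, Matrix.add_mul, Matrix.mul_one, hσ, Matrix.mul_smul,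
      Matrix.smul_mul]
  rw [e, Matrix.det_mul, Matrix.det_mul, mul_right_comm, ← Matrix.det_mul, hσ, Matrix.det_one,
    one_mul]

theorem det_one_add_pos {M : Matrix ι ι ℝ} (hM : M.PosSemidef) : 0 < (1 + M).det :=
  (Matrix.PosDef.one.add_posSemidef hM).det_pos

omit [DecidableEq ι] in
theorem integrable_exp_quad {M : Matrix ι ι ℝ} (hM : M.PosSemidef) :
    Integrable (fun g => exp (-(g ⬝ᵥ M *ᵥ g))) (gaussPi ι) := by
  refine Integrable.of_bound (C := 1) (by fun_prop) (ae_of_all _ fun g => ?_)
  rw [norm_of_nonneg (exp_pos _).le, exp_le_one_iff, neg_nonpos]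
  simpa using hM.dotProduct_mulVec_nonneg g

theorem det_one_add_twist_le {C : Matrix ι ι ℝ} (hC : C.PosSemidef) (s : ι → Bool) {c τ τ' : ℝ}
    (hc : 0 ≤ c) (h0 : 0 ≤ τ) (h : τ ≤ τ') (h1 : τ' ≤ 1) :
    (1 + c • twist s τ' C).det ≤ (1 + c • twist s τ C).det := by
  rcases (h0.trans h).eq_or_lt with h0' | h0'
  · rw [show τ = τ' by linarith]
  have hp : ∀ u, -1 ≤ u → u ≤ 1 → ((c / 2) • twist s u C).PosSemidef := fun u hu hu' =>
    (posSemidef_twist hC s hu hu').smul (by linarith)
  have e2 : ∀ u, (2 : ℝ) • (c / 2) • twist s u C = c • twist s u C := fun u => by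
    rw [smul_smul, mul_div_cancel₀ c two_ne_zero]
  obtain ⟨a, ha⟩ : ∃ a, a = (1 + τ / τ') / 2 := ⟨_, rfl⟩
  have hq : τ / τ' ≤ 1 := (div_le_one h0').2 h
  have hq0 : 0 ≤ τ / τ' := by positivity
  have hτ : τ = a * τ' + (1 - a) * -τ' := by
    rw [ha]; field_simp; ring
  have hle : ∫ g, exp (-(g ⬝ᵥ ((c / 2) • twist s τ C) *ᵥ g)) ∂gaussPi ι ≤
      ∫ g, (a * exp (-(g ⬝ᵥ ((c / 2) • twist s τ' C) *ᵥ g)) +
        (1 - a) * exp (-(g ⬝ᵥ ((c / 2) • twist s (-τ') C) *ᵥ g))) ∂gaussPi ι := by
    refine integral_mono (integrable_exp_quad (hp _ (by linarith) (by linarith)))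
      (((integrable_exp_quad (hp _ (by linarith) h1)).const_mul a).add
        ((integrable_exp_quad (hp _ (by linarith) (by linarith))).const_mul (1 - a))) fun g => ?_
    have hh := convexOn_exp.2 (Set.mem_univ (-(g ⬝ᵥ ((c / 2) • twist s τ' C) *ᵥ g)))
      (Set.mem_univ (-(g ⬝ᵥ ((c / 2) • twist s (-τ') C) *ᵥ g))) (show 0 ≤ a by linarith)
      (show 0 ≤ 1 - a by linarith) (add_sub_cancel a 1)
    simp only [smul_eq_mul] at hh
    refine le_trans (le_of_eq (congrArg exp ?_)) hh
    rw [hτ, twist_affine s (add_sub_cancel a 1)]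
    simp only [Matrix.add_mulVec, Matrix.smul_mulVec, dotProduct_add, dotProduct_smul, smul_add,
      smul_eq_mul, smul_smul]
    ring
  rw [integral_add ((integrable_exp_quad (hp _ (by linarith) h1)).const_mul a)
      ((integrable_exp_quad (hp _ (by linarith) (by linarith))).const_mul (1 - a)),
    integral_const_mul, integral_const_mul, laplace_quad (hp _ (by linarith) (by linarith)),
    laplace_quad (hp _ (by linarith) h1), laplace_quad (hp _ (by linarith) (by linarith)), e2, e2,
    e2, det_one_add_smul_twist_neg, ← add_mul, add_sub_cancel, one_mul] at hle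
  have hpos : ∀ u, -1 ≤ u → u ≤ 1 → 0 < (1 + c • twist s u C).det := fun u hu hu' =>
    det_one_add_pos ((posSemidef_twist hC s hu hu').smul hc)
  have hd := hpos τ (by linarith) (by linarith)
  have hd' := hpos τ' (by linarith) h1
  exact (sqrt_le_sqrt_iff hd.le).1 ((inv_le_inv₀ (sqrt_pos.2 hd) (sqrt_pos.2 hd')).1 hle)

/-- **The minors decrease.** -/
theorem det_twist_antitone {C : Matrix ι ι ℝ} (hC : C.PosSemidef) (s : ι → Bool) :
    AntitoneOn (fun τ => (twist s τ C).det) (Set.Icc 0 1) := by
  intro τ hτ τ' hτ' h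
  have hc : ∀ M : Matrix ι ι ℝ,
      Filter.Tendsto (fun ε : ℝ => (ε • (1 : Matrix ι ι ℝ) + M).det) (𝓝[>] 0) (𝓝 M.det) :=
    fun M => by
    have hcont : Continuous fun ε : ℝ => (ε • (1 : Matrix ι ι ℝ) + M).det := by fun_prop
    simpa using (hcont.tendsto 0).mono_left nhdsWithin_le_nhds
  refine le_of_tendsto_of_tendsto (hc _) (hc _) (eventually_nhdsWithin_of_forall fun ε hε => ?_)
  have e : ∀ M : Matrix ι ι ℝ, ε • (1 : Matrix ι ι ℝ) + M = ε • (1 + ε⁻¹ • M) := fun M => by
    rw [smul_add, smul_smul, mul_inv_cancel₀ (ne_of_gt hε), one_smul]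
  simp only [e, Matrix.det_smul]
  exact mul_le_mul_of_nonneg_left
    (det_one_add_twist_le hC s (inv_nonneg.2 (le_of_lt hε)) hτ.1 h hτ'.2)
    (pow_nonneg (le_of_lt hε) _)

theorem differentiable_det_twist (C : Matrix ι ι ℝ) (s : ι → Bool) :
    Differentiable ℝ fun τ => (twist s τ C).det := by
  simp only [Matrix.det_apply']
  refine Differentiable.fun_sum fun σ _ => (Differentiable.fun_finsetProd fun i _ => ?_).const_mul _
  by_cases h : s (σ i) = s i <;> simp only [twist, Matrix.of_apply, h, if_true, if_false] <;>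
    fun_prop

theorem deriv_det_twist_nonpos {C : Matrix ι ι ℝ} (hC : C.PosSemidef) (s : ι → Bool) {τ : ℝ}
    (hτ : τ ∈ Set.Ioo (0 : ℝ) 1) : deriv (fun t => (twist s t C).det) τ ≤ 0 := by
  rw [← derivWithin_of_mem_nhds (Icc_mem_nhds hτ.1 hτ.2)]
  exact (det_twist_antitone hC s).derivWithin_nonpos

end FA.GaussianCorrelation

end
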