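import Fermat.Agent.GaussianCorrelation.Minors
import Mathlib.Analysis.Calculus.Deriv.MeanValue
import Mathlib.Analysis.Matrix.Order
import Mathlib.Analysis.SpecialFunctions.Sqrt

/-!
# Royen's monotonicity

For `g i` increasing polynomials of `exp (-x²)`, the expectation of `∏ g i (X i)` increases when the
correlations between two groups of coordinates are switched on: its derivative is a combination,
with nonnegative coefficients, of expectations of nonnegative functions of three independent copies.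
-/

set_option autoImplicit false

noncomputable section

namespace FA.GaussianCorrelation

open MeasureTheory ProbabilityTheory Real Finset
open scoped Matrix MatrixOrder

variable {ι κ : Type*} [Fintype ι] [DecidableEq ι] [Fintype κ] [DecidableEq κ]

/-- A product of polynomials in `exp (-W i)`, integrated term by term. -/
theorem integral_prod_series {Ω : Type*} [MeasurableSpace Ω] (μ : Measure Ω)
    [IsProbabilityMeasure μ] {W : Ω → ι → ℝ} (hW : ∀ i, Measurable fun ω => W ω i)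
    (hW0 : ∀ ω i, 0 ≤ W ω i) (c : ι → ℕ → ℝ) (N : ℕ) :
    ∫ ω, ∏ i, ∑ r ∈ range N, c i r * exp (-W ω i) ^ r ∂μ =
      ∑ r ∈ Fintype.piFinset fun _ : ι => range N,
        (∏ i, c i (r i)) * ∫ ω, exp (-∑ i, (r i : ℝ) * W ω i) ∂μ := by
  have e : ∀ ω, ∏ i, ∑ r ∈ range N, c i r * exp (-W ω i) ^ r =
      ∑ r ∈ Fintype.piFinset fun _ : ι => range N,
        (∏ i, c i (r i)) * exp (-∑ i, (r i : ℝ) * W ω i) := fun ω => by
    rw [prod_univ_sum]
    refine sum_congr rfl fun r _ => ?_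
    rw [prod_mul_distrib, ← sum_neg_distrib, exp_sum]
    refine congrArg _ (prod_congr rfl fun i _ => ?_)
    rw [← exp_nat_mul, mul_neg]
  simp only [e]
  rw [integral_finsetSum _ fun r _ => ?_]
  · simp only [integral_const_mul]
  refine (Integrable.of_bound (C := 1) ?_ (ae_of_all _ fun ω => ?_)).const_mul _
  · exact (Finset.measurable_sum _ fun i _ => (hW i).const_mul _).neg.exp.aestronglyMeasurable
  · rw [norm_of_nonneg (exp_pos _).le, exp_le_one_iff, neg_nonpos]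
    exact sum_nonneg fun i _ => mul_nonneg (Nat.cast_nonneg _) (hW0 ω i)

/-- The determinant in the Laplace transform. -/
def lapDet (s : ι → Bool) (C : Matrix ι ι ℝ) (r : ι → ℕ) (τ : ℝ) : ℝ :=
  (1 + Matrix.diagonal (2 • fun i => (r i : ℝ)) * twist s τ C).det

/-- The interpolated expectation. -/
def interp (s : ι → Bool) (C : Matrix ι ι ℝ) (c : ι → ℕ → ℝ) (N : ℕ) (τ : ℝ) : ℝ :=
  ∑ r ∈ Fintype.piFinset fun _ : ι => range N, (∏ i, c i (r i)) * (√(lapDet s C r τ))⁻¹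

theorem integral_squares_eq_interp {A : Matrix ι κ ℝ} {s : ι → Bool} {C : Matrix ι ι ℝ} {τ : ℝ}
    (hA : A * Aᵀ = twist s τ C) (c : ι → ℕ → ℝ) (N : ℕ) :
    ∫ g, ∏ i, ∑ r ∈ range N, c i r * exp (-(A *ᵥ g) i ^ 2) ^ r ∂gaussPi κ =
      interp s C c N τ := by
  rw [integral_prod_series (gaussPi κ) (W := fun g i => (A *ᵥ g) i ^ 2) (fun i => by fun_prop)
    fun g i => sq_nonneg _]
  refine sum_congr rfl fun r _ => ?_
  rw [laplace_squares A fun i => Nat.cast_nonneg (r i), hA]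
  rfl

theorem lapDet_eq (s : ι → Bool) (C : Matrix ι ι ℝ) (r : ι → ℕ) (τ : ℝ) :
    lapDet s C r τ = ∑ J : Finset ι, (∏ i ∈ J, (2 * (r i : ℝ))) *
      (twist (fun i : J => s i) τ (C.submatrix Subtype.val Subtype.val)).det := by
  rw [lapDet, det_one_add_diagonal_mul]
  refine sum_congr rfl fun J _ => congrArg₂ _ (prod_congr rfl fun i _ => by simp) rfl

theorem one_le_lapDet {C : Matrix ι ι ℝ} (hC : C.PosSemidef) (s : ι → Bool) (r : ι → ℕ) {τ : ℝ}
    (h0 : 0 ≤ τ) (h1 : τ ≤ 1) : 1 ≤ lapDet s C r τ := by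
  rw [lapDet_eq]
  refine le_trans ?_ (single_le_sum (fun J _ => mul_nonneg (prod_nonneg fun i _ => by positivity)
    (posSemidef_twist (hC.submatrix _) _ (by linarith) h1).det_nonneg) (mem_univ ∅))
  simp

theorem hasDerivAt_lapDet (C : Matrix ι ι ℝ) (s : ι → Bool) (r : ι → ℕ) (τ : ℝ) :
    HasDerivAt (lapDet s C r) (∑ J : Finset ι, (∏ i ∈ J, (2 * (r i : ℝ))) *
      deriv (fun t => (twist (fun i : J => s i) t (C.submatrix Subtype.val Subtype.val)).det) τ)
      τ := by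
  rw [funext (lapDet_eq s C r)]
  exact HasDerivAt.fun_sum fun J _ =>
    ((differentiable_det_twist _ _).differentiableAt.hasDerivAt).const_mul _

theorem hasDerivAt_interp {C : Matrix ι ι ℝ} (hC : C.PosSemidef) (s : ι → Bool) (c : ι → ℕ → ℝ)
    (N : ℕ) {τ : ℝ} (h0 : 0 ≤ τ) (h1 : τ ≤ 1) :
    HasDerivAt (interp s C c N)
      (∑ J : Finset ι, (-(1 / 2) * 2 ^ J.card *
          deriv (fun t =>
            (twist (fun i : J => s i) t (C.submatrix Subtype.val Subtype.val)).det) τ) *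
        ∑ r ∈ Fintype.piFinset fun _ : ι => range N,
          (∏ i, c i (r i) * (if i ∈ J then (r i : ℝ) else 1)) * (√(lapDet s C r τ))⁻¹ ^ 3) τ := by
  have h : ∀ r ∈ Fintype.piFinset fun _ : ι => range N, HasDerivAt
      (fun t => (∏ i, c i (r i)) * (√(lapDet s C r t))⁻¹)
      ((∏ i, c i (r i)) * (-(1 / 2) * (∑ J : Finset ι, (∏ i ∈ J, (2 * (r i : ℝ))) *
        deriv (fun t => (twist (fun i : J => s i) t (C.submatrix Subtype.val Subtype.val)).det) τ) *
        (√(lapDet s C r τ))⁻¹ ^ 3)) τ := fun r _ => by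
    have hD := one_le_lapDet hC s r h0 h1
    have hs : 0 < √(lapDet s C r τ) := sqrt_pos.2 (by linarith)
    refine
      ((((hasDerivAt_lapDet C s r τ).sqrt (by linarith)).inv hs.ne').const_mul _).congr_deriv ?_
    field_simp
  refine (HasDerivAt.fun_sum h).congr_deriv ?_
  simp only [mul_sum, sum_mul]
  rw [sum_comm]
  refine sum_congr rfl fun J _ => sum_congr rfl fun r _ => ?_
  rw [prod_mul_distrib, prod_mul_distrib, prod_const, prod_ite_mem, univ_inter]
  ring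

theorem sum_cube_nonneg {C : Matrix ι ι ℝ} (hC : C.PosSemidef) (s : ι → Bool) {c : ι → ℕ → ℝ}
    {N : ℕ} (hc : ∀ i, ∀ u ∈ Set.Icc (0 : ℝ) 1, 0 ≤ ∑ r ∈ range N, c i r * u ^ r)
    (hc' : ∀ i, ∀ u ∈ Set.Icc (0 : ℝ) 1, 0 ≤ ∑ r ∈ range N, c i r * r * u ^ r) (J : Finset ι)
    {τ : ℝ} (h0 : 0 ≤ τ) (h1 : τ ≤ 1) :
    0 ≤ ∑ r ∈ Fintype.piFinset fun _ : ι => range N,
      (∏ i, c i (r i) * (if i ∈ J then (r i : ℝ) else 1)) * (√(lapDet s C r τ))⁻¹ ^ 3 := by
  obtain ⟨B, hB⟩ :=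
    CStarAlgebra.nonneg_iff_eq_star_mul_self.1 (posSemidef_twist hC s (by linarith) h1).nonneg
  have hBB : Bᵀ * Bᵀᵀ = twist s τ C := by
    rw [hB, Matrix.transpose_transpose, Matrix.star_eq_conjTranspose,
      Matrix.conjTranspose_eq_transpose_of_trivial]
  have h := integral_prod_series (Measure.pi fun _ : Fin 3 => gaussPi ι)
    (W := fun G i => ∑ j, (Bᵀ *ᵥ G j) i ^ 2)
    (fun i => by fun_prop) (fun G i => sum_nonneg fun j _ => sq_nonneg _)
    (fun i r => c i r * (if i ∈ J then (r : ℝ) else 1)) N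
  simp only [laplace_squares_pow 3 _ fun i => Nat.cast_nonneg _, hBB] at h
  refine le_of_le_of_eq ?_ h
  refine integral_nonneg fun G => prod_nonneg fun i _ => ?_
  have hu : exp (-∑ j, (Bᵀ *ᵥ G j) i ^ 2) ∈ Set.Icc (0 : ℝ) 1 :=
    ⟨(exp_pos _).le, exp_le_one_iff.2 (neg_nonpos.2 (sum_nonneg fun j _ => sq_nonneg _))⟩
  by_cases hi : i ∈ J
  · simpa [hi] using hc' i _ hu
  · simpa [hi] using hc i _ hu

/-- **Royen's monotonicity.** -/
theorem monotoneOn_interp {C : Matrix ι ι ℝ} (hC : C.PosSemidef) (s : ι → Bool) {c : ι → ℕ → ℝ}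
    {N : ℕ} (hc : ∀ i, ∀ u ∈ Set.Icc (0 : ℝ) 1, 0 ≤ ∑ r ∈ range N, c i r * u ^ r)
    (hc' : ∀ i, ∀ u ∈ Set.Icc (0 : ℝ) 1, 0 ≤ ∑ r ∈ range N, c i r * r * u ^ r) :
    MonotoneOn (interp s C c N) (Set.Icc 0 1) := by
  have hd := fun τ (h : τ ∈ Set.Icc (0 : ℝ) 1) => hasDerivAt_interp hC s c N h.1 h.2
  refine monotoneOn_of_deriv_nonneg (convex_Icc 0 1)
    (fun τ h => (hd τ h).continuousAt.continuousWithinAt)
    (fun τ h => (hd τ (interior_subset h)).differentiableAt.differentiableWithinAt) fun τ h => ?_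
  rw [(hd τ (interior_subset h)).deriv]
  rw [interior_Icc] at h
  refine sum_nonneg fun J _ => mul_nonneg ?_ (sum_cube_nonneg hC s hc hc' J h.1.le h.2.le)
  nlinarith [deriv_det_twist_nonpos (hC.submatrix (Subtype.val : J → ι)) (fun i : J => s i) h,
    pow_pos (two_pos (α := ℝ)) J.card]

omit [DecidableEq ι] [DecidableEq κ] in
theorem integral_prod_comap (A : Matrix ι κ ℝ) (s : ι → Bool) (f : ι → ℝ → ℝ) :
    ∫ g, ∏ i, f i (((Matrix.of fun i (l : κ ⊕ κ) => Sum.elim (fun l => if s i then A i l else 0)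
        (fun l => if s i then 0 else A i l) l) *ᵥ g) i) ∂gaussPi (κ ⊕ κ) =
      (∫ g, ∏ i ∈ univ.filter (fun i => s i), f i ((A *ᵥ g) i) ∂gaussPi κ) *
        ∫ g, ∏ i ∈ univ.filter (fun i => ¬ s i), f i ((A *ᵥ g) i) ∂gaussPi κ := by
  rw [← integral_prod_mul]
  have h := measurePreserving_sumPiEquivProdPi (X := fun _ : κ ⊕ κ => ℝ) fun _ => gaussianReal 0 1
  simp only [gaussPi]
  rw [← h.integral_comp']
  refine integral_congr_ae (ae_of_all _ fun g => ?_)
  refine (prod_filter_mul_prod_filter_not univ (fun i => s i) _).symm.trans ?_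
  refine congrArg₂ _ (prod_congr rfl fun i hi => ?_) (prod_congr rfl fun i hi => ?_)
  all_goals
    simp only [mem_filter, mem_univ, true_and, Bool.not_eq_true] at hi
    refine congrArg (f i) ?_
    simp [Matrix.mulVec, dotProduct, hi, MeasurableEquiv.sumPiEquivProdPi, Equiv.sumPiEquivProdPi]

/-- **The correlation inequality for increasing polynomials in `exp (-x²)`.** -/
theorem series_correlation (A : Matrix ι κ ℝ) (s : ι → Bool) {c : ι → ℕ → ℝ} {N : ℕ}
    (hc : ∀ i, ∀ u ∈ Set.Icc (0 : ℝ) 1, 0 ≤ ∑ r ∈ range N, c i r * u ^ r)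
    (hc' : ∀ i, ∀ u ∈ Set.Icc (0 : ℝ) 1, 0 ≤ ∑ r ∈ range N, c i r * r * u ^ r) :
    (∫ g, ∏ i ∈ univ.filter (fun i => s i),
        ∑ r ∈ range N, c i r * exp (-(A *ᵥ g) i ^ 2) ^ r ∂gaussPi κ) *
      (∫ g, ∏ i ∈ univ.filter (fun i => ¬ s i),
        ∑ r ∈ range N, c i r * exp (-(A *ᵥ g) i ^ 2) ^ r ∂gaussPi κ) ≤
      ∫ g, ∏ i, ∑ r ∈ range N, c i r * exp (-(A *ᵥ g) i ^ 2) ^ r ∂gaussPi κ := by
  have hC : (A * Aᵀ).PosSemidef := by simpa using Matrix.posSemidef_self_mul_conjTranspose A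
  rw [← integral_prod_comap A s fun i x => ∑ r ∈ range N, c i r * exp (-x ^ 2) ^ r]
  rw [integral_squares_eq_interp (A := A) (s := s) (C := A * Aᵀ) (τ := 1) (twist_one s _).symm,
    integral_squares_eq_interp (s := s) (C := A * Aᵀ) (τ := 0)]
  · exact monotoneOn_interp hC s hc hc' ⟨le_rfl, zero_le_one⟩ ⟨zero_le_one, le_rfl⟩ zero_le_one
  · ext i j
    cases hi : s i <;> cases hj : s j <;>
      simp [twist, Matrix.mul_apply, Fintype.sum_sum_type, hi, hj]

end FA.GaussianCorrelation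

end
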