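import Fermat.Agent.GaussianCorrelation.Monotone
import Mathlib.Algebra.Polynomial.Derivative
import Mathlib.Analysis.SpecificLimits.Normed

/-!
# Strips

The indicator of `|x| ≤ t` is a limit of increasing polynomials of `exp (-x²)`, so the correlation
inequality holds for intersections of finitely or countably many strips.
-/

set_option autoImplicit false

noncomputable section

namespace FA.GaussianCorrelation

open MeasureTheory Real Finset Filter
open scoped Matrix Topology Polynomial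

variable {ι κ : Type*} [Fintype ι] [DecidableEq ι] [Fintype κ] [DecidableEq κ]

/-- Increasing polynomials on `[0, 1]` which tend to the indicator of `[c, 1]`. -/
def stepPoly (c : ℝ) (k : ℕ) : ℝ[X] :=
  1 - (1 - Polynomial.X ^ (k + 1)) ^ ⌈((k : ℝ) + 1) / c ^ (k + 1)⌉₊

theorem stepPoly_eval (c : ℝ) (k : ℕ) (u : ℝ) :
    (stepPoly c k).eval u = 1 - (1 - u ^ (k + 1)) ^ ⌈((k : ℝ) + 1) / c ^ (k + 1)⌉₊ := by
  simp [stepPoly]

theorem stepPoly_mem (c : ℝ) (k : ℕ) {u : ℝ} (hu : u ∈ Set.Icc (0 : ℝ) 1) :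
    (stepPoly c k).eval u ∈ Set.Icc (0 : ℝ) 1 := by
  have h0 : 0 ≤ 1 - u ^ (k + 1) := sub_nonneg.2 (pow_le_one₀ hu.1 hu.2)
  have h1 : 1 - u ^ (k + 1) ≤ 1 := sub_le_self _ (pow_nonneg hu.1 _)
  rw [stepPoly_eval, Set.mem_Icc]
  constructor
  · linarith [pow_le_one₀ (n := ⌈((k : ℝ) + 1) / c ^ (k + 1)⌉₊) h0 h1]
  · linarith [pow_nonneg h0 ⌈((k : ℝ) + 1) / c ^ (k + 1)⌉₊]

theorem stepPoly_derivative_nonneg (c : ℝ) (k : ℕ) {u : ℝ} (hu : u ∈ Set.Icc (0 : ℝ) 1) :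
    0 ≤ (Polynomial.derivative (stepPoly c k)).eval u := by
  have h0 : 0 ≤ 1 - u ^ (k + 1) := sub_nonneg.2 (pow_le_one₀ hu.1 hu.2)
  simp only [stepPoly, map_sub, Polynomial.derivative_one, Polynomial.derivative_pow,
    Polynomial.derivative_X, mul_one, Polynomial.eval_mul, Polynomial.eval_sub,
    Polynomial.eval_pow, Polynomial.eval_C, Polynomial.eval_X, Polynomial.eval_one,
    zero_sub, mul_neg, neg_neg]
  have := hu.1
  positivity

theorem tendsto_stepPoly {c : ℝ} (hc : 0 < c) (hc1 : c ≤ 1) {u : ℝ} (hu : u ∈ Set.Icc (0 : ℝ) 1) :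
    Tendsto (fun k => (stepPoly c k).eval u) atTop (𝓝 (if c ≤ u then 1 else 0)) := by
  have hb : ∀ k : ℕ, ((k : ℝ) + 1) / c ^ (k + 1) ≤ (⌈((k : ℝ) + 1) / c ^ (k + 1)⌉₊ : ℝ) :=
    fun k => Nat.le_ceil _
  split_ifs with h
  · have hlim : Tendsto (fun k : ℕ => 1 - exp (-((k : ℝ) + 1))) atTop (𝓝 1) := by
      simpa using ((tendsto_exp_neg_atTop_nhds_zero.comp
        (tendsto_atTop_add_const_right atTop (1 : ℝ) tendsto_natCast_atTop_atTop)).const_sub 1)
    refine tendsto_of_tendsto_of_tendsto_of_le_of_le hlim tendsto_const_nhds (fun k => ?_)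
      fun k => (stepPoly_mem c k hu).2
    simp only [stepPoly_eval]
    refine sub_le_sub_left ((pow_le_pow_left₀ (sub_nonneg.2 (pow_le_one₀ hu.1 hu.2))
      (one_sub_le_exp_neg _) _).trans ?_) 1
    rw [← exp_nat_mul, exp_le_exp, mul_neg, neg_le_neg_iff]
    calc (k : ℝ) + 1 = ((k : ℝ) + 1) / c ^ (k + 1) * c ^ (k + 1) :=
          (div_mul_cancel₀ _ (pow_pos hc _).ne').symm
      _ ≤ _ := mul_le_mul (hb k) (pow_le_pow_left₀ hc.le h _) (pow_nonneg hc.le _)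
          (Nat.cast_nonneg _)
  · have hr0 : 0 ≤ u / c := div_nonneg hu.1 hc.le
    have hr1 : u / c < 1 := (div_lt_one hc).2 (not_le.1 h)
    have hlim : Tendsto (fun k : ℕ => ((k + 1 : ℕ) : ℝ) * (u / c) ^ (k + 1) +
          (u / c) ^ (k + 1) * c ^ (k + 1))
        atTop (𝓝 0) := by
      have h1 := (tendsto_self_mul_const_pow_of_lt_one hr0 hr1).comp (tendsto_add_atTop_nat 1)
      have h2 := (tendsto_pow_atTop_nhds_zero_of_lt_one hu.1 ((not_le.1 h).trans_le hc1)).comp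
        (tendsto_add_atTop_nat 1)
      simpa [← mul_pow, div_mul_cancel₀ u hc.ne'] using h1.add h2
    refine squeeze_zero (fun k => (stepPoly_mem c k hu).1) (fun k => ?_) hlim
    simp only [stepPoly_eval]
    have hb1 := (Nat.ceil_lt_add_one (show 0 ≤ ((k : ℝ) + 1) / c ^ (k + 1) by positivity)).le
    have hB := one_add_mul_le_pow (a := -u ^ (k + 1))
      (by linarith [pow_le_one₀ (n := k + 1) hu.1 hu.2]) ⌈((k : ℝ) + 1) / c ^ (k + 1)⌉₊
    rw [← sub_eq_add_neg] at hB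
    have h3 := mul_le_mul_of_nonneg_right hb1 (pow_nonneg hu.1 (k + 1))
    have e : (((k : ℝ) + 1) / c ^ (k + 1) + 1) * u ^ (k + 1) =
        ((k + 1 : ℕ) : ℝ) * (u / c) ^ (k + 1) + (u / c) ^ (k + 1) * c ^ (k + 1) := by
      push_cast
      rw [div_pow]
      field_simp
    linarith

theorem strip_eq_exp {x t : ℝ} (ht : 0 ≤ t) : |x| ≤ t ↔ exp (-t ^ 2) ≤ exp (-x ^ 2) := by
  rw [exp_le_exp, neg_le_neg_iff, ← sq_abs x, sq_le_sq₀ (abs_nonneg x) ht]

omit [DecidableEq κ] in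
theorem tendsto_integral_prod (A : Matrix ι κ ℝ) {t : ι → ℝ} (ht : ∀ i, 0 ≤ t i) (S : Finset ι) :
    Tendsto (fun k => ∫ g, ∏ i ∈ S, (stepPoly (exp (-t i ^ 2)) k).eval (exp (-(A *ᵥ g) i ^ 2))
        ∂gaussPi κ) atTop (𝓝 ((gaussPi κ).real {g | ∀ i ∈ S, |(A *ᵥ g) i| ≤ t i})) := by
  have hu : ∀ (g : κ → ℝ) i, exp (-(A *ᵥ g) i ^ 2) ∈ Set.Icc (0 : ℝ) 1 := fun g i =>
    ⟨(exp_pos _).le, exp_le_one_iff.2 (neg_nonpos.2 (sq_nonneg _))⟩
  have hm : MeasurableSet {g : κ → ℝ | ∀ i ∈ S, |(A *ᵥ g) i| ≤ t i} := by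
    simp only [Set.ofPred_forall]
    exact MeasurableSet.biInter S.countable_toSet fun i _ =>
      measurableSet_le (by fun_prop) measurable_const
  rw [← integral_indicator_one hm]
  refine tendsto_integral_of_dominated_convergence (fun _ => 1) (fun k => ?_) (integrable_const _)
    (fun k => ae_of_all _ fun g => ?_) (ae_of_all _ fun g => ?_)
  · exact (continuous_finsetProd _ fun i _ => ((stepPoly _ k).continuous.comp
      (by fun_prop))).aestronglyMeasurable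
  · rw [norm_of_nonneg (prod_nonneg fun i _ => (stepPoly_mem _ k (hu g i)).1)]
    exact prod_le_one (fun i _ => (stepPoly_mem _ k (hu g i)).1)
      fun i _ => (stepPoly_mem _ k (hu g i)).2
  · have h := tendsto_finsetProd S fun i _ => tendsto_stepPoly (exp_pos (-t i ^ 2))
      (exp_le_one_iff.2 (neg_nonpos.2 (sq_nonneg (t i)))) (hu g i)
    convert! h using 2
    simp only [← strip_eq_exp (ht _), prod_boole]
    by_cases hg : ∀ i ∈ S, |(A *ᵥ g) i| ≤ t i
    · rw [if_pos hg, Set.indicator_of_mem (by exact hg), Pi.one_apply]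
    · rw [if_neg hg, Set.indicator_of_notMem (by exact hg)]

theorem strip_correlation_nonneg (A : Matrix ι κ ℝ) (s : ι → Bool) {t : ι → ℝ}
    (ht : ∀ i, 0 ≤ t i) :
    (gaussPi κ).real {g | ∀ i, s i → |(A *ᵥ g) i| ≤ t i} *
      (gaussPi κ).real {g | ∀ i, ¬ s i → |(A *ᵥ g) i| ≤ t i} ≤
      (gaussPi κ).real {g | ∀ i, |(A *ᵥ g) i| ≤ t i} := by
  have h1 := tendsto_integral_prod A ht (univ.filter fun i => s i)
  have h2 := tendsto_integral_prod A ht (univ.filter fun i => ¬ s i)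
  have h3 := tendsto_integral_prod A ht univ
  simp only [mem_filter, mem_univ, true_and, forall_const] at h1 h2 h3
  refine le_of_tendsto_of_tendsto' (h1.mul h2) h3 fun k => ?_
  have hdeg : ∀ P : ι → ℝ[X], ∃ N, ∀ i, (P i).natDegree < N := fun P =>
    ⟨univ.sup (fun i => (P i).natDegree) + 1, fun i =>
      Nat.lt_succ_of_le (le_sup (f := fun i => (P i).natDegree) (mem_univ i))⟩
  obtain ⟨N, hN⟩ := hdeg fun i => stepPoly (exp (-t i ^ 2)) k
  simp only [Polynomial.eval_eq_sum_range' (hN _)]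
  refine series_correlation A s (c := fun i r => (stepPoly (exp (-t i ^ 2)) k).coeff r)
    (fun i u hu => ?_) fun i u hu => ?_
  · rw [← Polynomial.eval_eq_sum_range' (hN i)]
    exact (stepPoly_mem _ k hu).1
  · refine le_of_le_of_eq (mul_nonneg hu.1 (stepPoly_derivative_nonneg (exp (-t i ^ 2)) k hu)) ?_
    conv_lhs => rw [Polynomial.as_sum_range_C_mul_X_pow' _ (hN i)]
    simp only [map_sum, Polynomial.eval_finsetSum, mul_sum, Polynomial.derivative_C_mul_X_pow,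
      Polynomial.eval_mul, Polynomial.eval_C, Polynomial.eval_pow, Polynomial.eval_X]
    refine sum_congr rfl fun r _ => ?_
    cases r with
    | zero => simp
    | succ r => simp [pow_succ]; ring

/-- **The correlation inequality for finitely many strips.** -/
theorem strip_correlation (A : Matrix ι κ ℝ) (s : ι → Bool) (t : ι → ℝ) :
    (gaussPi κ).real {g | ∀ i, s i → |(A *ᵥ g) i| ≤ t i} *
      (gaussPi κ).real {g | ∀ i, ¬ s i → |(A *ᵥ g) i| ≤ t i} ≤
      (gaussPi κ).real {g | ∀ i, |(A *ᵥ g) i| ≤ t i} := by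
  by_cases ht : ∀ i, 0 ≤ t i
  · exact strip_correlation_nonneg A s ht
  obtain ⟨i, hi⟩ := not_forall.1 ht
  refine le_trans (le_of_eq ?_) measureReal_nonneg
  rcases Bool.eq_false_or_eq_true (s i) with h | h
  · rw [show {g : κ → ℝ | ∀ j, s j → |(A *ᵥ g) j| ≤ t j} = ∅ from Set.eq_empty_of_forall_notMem
      fun g hg => hi ((abs_nonneg _).trans (hg i h)), measureReal_empty, zero_mul]
  · rw [show {g : κ → ℝ | ∀ j, ¬ s j → |(A *ᵥ g) j| ≤ t j} = ∅ from Set.eq_empty_of_forall_notMem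
      fun g hg => hi ((abs_nonneg _).trans (hg i (by simp [h]))), measureReal_empty, mul_zero]

/-- **The correlation inequality for countably many strips.** -/
theorem countable_strip_correlation (a b : ℕ → κ → ℝ) :
    gaussPi κ {g | ∀ j, |a j ⬝ᵥ g| ≤ 1} * gaussPi κ {g | ∀ j, |b j ⬝ᵥ g| ≤ 1} ≤
      gaussPi κ ({g | ∀ j, |a j ⬝ᵥ g| ≤ 1} ∩ {g | ∀ j, |b j ⬝ᵥ g| ≤ 1}) := by
  have hm : ∀ (c : ℕ → κ → ℝ) (N : ℕ), MeasurableSet {g : κ → ℝ | ∀ j < N, |c j ⬝ᵥ g| ≤ 1} :=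
    fun c N => by
      simp only [Set.ofPred_forall]
      exact MeasurableSet.iInter fun j => MeasurableSet.iInter fun _ =>
        measurableSet_le (by unfold dotProduct; fun_prop) measurable_const
  have hlim : ∀ (P : ℕ → Set (κ → ℝ)), (∀ N, MeasurableSet (P N)) → Antitone P →
      Tendsto (fun N => gaussPi κ (P N)) atTop (𝓝 (gaussPi κ (⋂ N, P N))) := fun P hP hP' =>
    tendsto_measure_iInter_atTop (fun N => (hP N).nullMeasurableSet) hP' ⟨0, measure_ne_top _ _⟩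
  have hanti : ∀ c : ℕ → κ → ℝ, Antitone fun N => {g : κ → ℝ | ∀ j < N, |c j ⬝ᵥ g| ≤ 1} :=
    fun c M N hMN g hg j hj => hg j (lt_of_lt_of_le hj hMN)
  have hI : ∀ c : ℕ → κ → ℝ,
      ⋂ N, {g : κ → ℝ | ∀ j < N, |c j ⬝ᵥ g| ≤ 1} = {g | ∀ j, |c j ⬝ᵥ g| ≤ 1} := fun c => by
    ext g
    simp only [Set.mem_iInter, Set.mem_ofPred_eq]
    exact ⟨fun h j => h (j + 1) j j.lt_succ_self, fun h _ j _ => h j⟩
  have ha := hlim _ (hm a) (hanti a)
  have hb := hlim _ (hm b) (hanti b)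
  have hab := hlim (fun N => {g | ∀ j < N, |a j ⬝ᵥ g| ≤ 1} ∩ {g | ∀ j < N, |b j ⬝ᵥ g| ≤ 1})
    (fun N => (hm a N).inter (hm b N)) ((hanti a).inter (hanti b))
  rw [Set.iInter_inter_distrib] at hab
  rw [hI] at ha hb
  rw [hI, hI] at hab
  refine le_of_tendsto_of_tendsto' (ENNReal.Tendsto.mul ha (Or.inr (measure_ne_top _ _)) hb
    (Or.inr (measure_ne_top _ _))) hab fun N => ?_
  have h := strip_correlation (Matrix.of (Sum.elim (fun j : Fin N => a j) fun j : Fin N => b j))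
    (fun i => i.isLeft) fun _ => 1
  have e : ∀ (c : ℕ → κ → ℝ) (g : κ → ℝ),
      (∀ j : Fin N, |c j ⬝ᵥ g| ≤ 1) ↔ ∀ j < N, |c j ⬝ᵥ g| ≤ 1 := fun c g =>
    ⟨fun h j hj => h ⟨j, hj⟩, fun h j => h j j.isLt⟩
  have ea : {g : κ → ℝ | ∀ i : Fin N ⊕ Fin N, i.isLeft → |((Matrix.of
      (Sum.elim (fun j : Fin N => a j) fun j : Fin N => b j)) *ᵥ g) i| ≤ 1} =
      {g | ∀ j < N, |a j ⬝ᵥ g| ≤ 1} := by
    ext g
    simp only [Set.mem_ofPred_eq, ← e a g, Sum.forall, Sum.isLeft_inl, Sum.isLeft_inr]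
    simp [Matrix.mulVec]
  have eb : {g : κ → ℝ | ∀ i : Fin N ⊕ Fin N, ¬ i.isLeft → |((Matrix.of
      (Sum.elim (fun j : Fin N => a j) fun j : Fin N => b j)) *ᵥ g) i| ≤ 1} =
      {g | ∀ j < N, |b j ⬝ᵥ g| ≤ 1} := by
    ext g
    simp only [Set.mem_ofPred_eq, ← e b g, Sum.forall, Sum.isLeft_inl, Sum.isLeft_inr]
    simp [Matrix.mulVec]
  have eab : {g : κ → ℝ | ∀ i : Fin N ⊕ Fin N, |((Matrix.of
      (Sum.elim (fun j : Fin N => a j) fun j : Fin N => b j)) *ᵥ g) i| ≤ 1} =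
      {g | ∀ j < N, |a j ⬝ᵥ g| ≤ 1} ∩ {g | ∀ j < N, |b j ⬝ᵥ g| ≤ 1} := by
    ext g
    simp only [Set.mem_inter_iff, Set.mem_ofPred_eq, ← e a g, ← e b g, Sum.forall]
    simp [Matrix.mulVec]
  simp only [ea, eb, eab, measureReal_def, ← ENNReal.toReal_mul] at h
  exact (ENNReal.toReal_le_toReal (ENNReal.mul_ne_top (measure_ne_top _ _) (measure_ne_top _ _))
    (measure_ne_top _ _)).1 h

end FA.GaussianCorrelation

end
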